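import Mathlib

/-!
# S56 / FL-D (different bound), part 1: valuations of `A`-combinations of powers of a uniformiser

`A ⊂ B` discrete valuation rings with `v_B(a) = n · v_A(a)` for `a ∈ A` ("ramification index `n`"),
`ϖ` a uniformiser of `B`.  For `b_j ∈ A` (`j < n`) the terms `b_j ϖ^j` have pairwise distinct
valuations, so `v_B(∑_{j<n} b_j ϖ^j) = min_j (n v_A(b_j) + j)`.  We only state the useful half
`v_B(∑) ≤ n v_A(b_j) + j`.
-/

set_option autoImplicit false

namespace Fermat.Agent.S56.H176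

open IsDiscreteValuationRing

section General

variable {R : Type*} [Ring R] (v : AddValuation R ℕ∞)

/-- If `i₀` is the unique index of strictly smallest valuation, the sum has that valuation. -/
theorem FLD_val_sum_eq_of_lt {ι : Type*} [DecidableEq ι] (s : Finset ι) (f : ι → R) (i₀ : ι)
    (hi₀ : i₀ ∈ s) (h : ∀ j ∈ s, j ≠ i₀ → v (f i₀) < v (f j)) :
    v (∑ j ∈ s, f j) = v (f i₀) := by
  rw [← Finset.add_sum_erase s f hi₀]
  by_cases htop : v (f i₀) = ⊤
  · -- then `s = {i₀}` up to nothing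
    have : s.erase i₀ = ∅ := by
      rw [Finset.eq_empty_iff_forall_notMem]
      intro j hj
      have hj' := Finset.mem_erase.mp hj
      have := h j hj'.2 hj'.1
      rw [htop] at this
      exact absurd this (not_lt.mpr le_top)
    rw [this, Finset.sum_empty, add_zero]
  · apply AddValuation.map_add_eq_of_lt_left
    apply AddValuation.map_lt_sum v htop
    intro j hj
    have hj' := Finset.mem_erase.mp hj
    exact h j hj'.2 hj'.1

/-- If the finite valuations of the terms are pairwise distinct, the valuation of the sum is at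
most the valuation of each term. -/
theorem FLD_val_sum_le {ι : Type*} [DecidableEq ι] (s : Finset ι) (f : ι → R)
    (hdist : ∀ i ∈ s, ∀ j ∈ s, i ≠ j → v (f i) ≠ ⊤ → v (f i) ≠ v (f j))
    (j₀ : ι) (hj₀ : j₀ ∈ s) : v (∑ j ∈ s, f j) ≤ v (f j₀) := by
  obtain ⟨i₀, hi₀, hmin⟩ := Finset.exists_min_image s (fun j => v (f j)) ⟨j₀, hj₀⟩
  by_cases htop : v (f i₀) = ⊤
  · have : v (f j₀) = ⊤ := top_le_iff.mp (htop ▸ hmin j₀ hj₀)
    rw [this]
    exact le_top
  · rw [FLD_val_sum_eq_of_lt v s f i₀ hi₀]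
    · exact hmin j₀ hj₀
    · intro j hj hne
      exact lt_of_le_of_ne (hmin j hj) (hdist i₀ hi₀ j hj (Ne.symm hne) htop)

/-- The valuation of the sum is at least any common lower bound of the terms. -/
theorem FLD_le_val_sum {ι : Type*} (s : Finset ι) (f : ι → R) (g : ℕ∞)
    (h : ∀ j ∈ s, g ≤ v (f j)) : g ≤ v (∑ j ∈ s, f j) :=
  AddValuation.map_le_sum v h

end General

end Fermat.Agent.S56.H176

namespace Fermat.Agent.S56.H176

open IsDiscreteValuationRing

section DVR

variable {A : Type*} [CommRing A] [IsDomain A] [IsDiscreteValuationRing A]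
  {B : Type*} [CommRing B] [IsDomain B] [IsDiscreteValuationRing B] [Algebra A B]

/-- The valuation of a term `b ϖ^j`. -/
theorem FLD_addVal_term {n : ℕ}
    (hram : ∀ a : A, addVal B (algebraMap A B a) = n • addVal A a)
    {ϖ : B} (hϖ : addVal B ϖ = 1) (b : A) (j : ℕ) :
    addVal B (algebraMap A B b * ϖ ^ j) = n • addVal A b + j := by
  rw [addVal_mul, addVal_pow, hϖ, hram, nsmul_one]

/-- Distinctness of the valuations of the terms `b_j ϖ^j`, `j < n`. -/
theorem FLD_addVal_term_ne {n : ℕ}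
    (hram : ∀ a : A, addVal B (algebraMap A B a) = n • addVal A a)
    {ϖ : B} (hϖ : addVal B ϖ = 1) (b : ℕ → A) {i j : ℕ} (hi : i < n) (hj : j < n)
    (hij : i ≠ j) (htop : addVal B (algebraMap A B (b i) * ϖ ^ i) ≠ ⊤) :
    addVal B (algebraMap A B (b i) * ϖ ^ i) ≠ addVal B (algebraMap A B (b j) * ϖ ^ j) := by
  rw [FLD_addVal_term hram hϖ, FLD_addVal_term hram hϖ] at *
  intro heq
  have hbi : addVal A (b i) ≠ ⊤ := by
    intro h
    apply htop
    rw [h]
    have hn : n ≠ 0 := by omega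
    simp [hn]
  obtain ⟨x, hx⟩ := ENat.ne_top_iff_exists.mp hbi
  have hbj : addVal A (b j) ≠ ⊤ := by
    intro h
    rw [h] at heq
    have hn : n ≠ 0 := by omega
    rw [← hx] at heq
    simp [hn] at heq
    exact absurd heq (by
      have : ((n * x + i : ℕ) : ℕ∞) ≠ ⊤ := ENat.natCast_ne_top _
      simpa using this)
  obtain ⟨y, hy⟩ := ENat.ne_top_iff_exists.mp hbj
  rw [← hx, ← hy] at heq
  have h2 : ((n * x + i : ℕ) : ℕ∞) = ((n * y + j : ℕ) : ℕ∞) := by
    simpa using heq
  have h3 : n * x + i = n * y + j := by exact_mod_cast h2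
  have h4 : i % n = j % n := by
    have := congrArg (· % n) h3
    simpa [Nat.add_mod, Nat.mul_mod_right] using this
  rw [Nat.mod_eq_of_lt hi, Nat.mod_eq_of_lt hj] at h4
  exact hij h4

/-- **Key inequality**: `v_B(∑_{j<n} b_j ϖ^j) ≤ n v_A(b_j) + j` for every `j < n`. -/
theorem FLD_addVal_sum_le {n : ℕ}
    (hram : ∀ a : A, addVal B (algebraMap A B a) = n • addVal A a)
    {ϖ : B} (hϖ : addVal B ϖ = 1) (b : ℕ → A) {j : ℕ} (hj : j < n) :
    addVal B (∑ i ∈ Finset.range n, algebraMap A B (b i) * ϖ ^ i) ≤ n • addVal A (b j) + j := by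
  rw [← FLD_addVal_term hram hϖ]
  refine FLD_val_sum_le (addVal B) (Finset.range n)
    (fun i => algebraMap A B (b i) * ϖ ^ i) ?_ j (Finset.mem_range.mpr hj)
  intro i hi i' hi' hne htop
  exact FLD_addVal_term_ne hram hϖ b (Finset.mem_range.mp hi) (Finset.mem_range.mp hi') hne htop

/-- Lower bound: `g ≤ n v_A(b_j) + j` for all `j < n` implies `g ≤ v_B(∑_{j<n} b_j ϖ^j)`. -/
theorem FLD_le_addVal_sum {n : ℕ}
    (hram : ∀ a : A, addVal B (algebraMap A B a) = n • addVal A a)
    {ϖ : B} (hϖ : addVal B ϖ = 1) (b : ℕ → A) (g : ℕ∞)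
    (h : ∀ j < n, g ≤ n • addVal A (b j) + j) :
    g ≤ addVal B (∑ i ∈ Finset.range n, algebraMap A B (b i) * ϖ ^ i) := by
  refine FLD_le_val_sum (addVal B) _ _ g ?_
  intro j hj
  rw [FLD_addVal_term hram hϖ]
  exact h j (Finset.mem_range.mp hj)

/-- Linear independence: a vanishing combination has vanishing coefficients. -/
theorem FLD_coeff_eq_zero {n : ℕ}
    (hram : ∀ a : A, addVal B (algebraMap A B a) = n • addVal A a)
    {ϖ : B} (hϖ : addVal B ϖ = 1) (b : ℕ → A)
    (h0 : ∑ i ∈ Finset.range n, algebraMap A B (b i) * ϖ ^ i = 0) {j : ℕ} (hj : j < n) :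
    b j = 0 := by
  have h1 := FLD_addVal_sum_le hram hϖ b hj
  rw [h0, addVal_zero, top_le_iff] at h1
  by_contra hb
  have hbj : addVal A (b j) ≠ ⊤ := fun h => hb (addVal_eq_top_iff.mp h)
  obtain ⟨x, hx⟩ := ENat.ne_top_iff_exists.mp hbj
  rw [← hx] at h1
  have : ((n * x + j : ℕ) : ℕ∞) ≠ ⊤ := ENat.natCast_ne_top _
  apply this
  simpa using h1

end DVR

end Fermat.Agent.S56.H176
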