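import Mathlib
import Fermat.Agent.S56.H176.FLDVal

/-!
# S56 / FL-D, part 2: a totally ramified extension of DVRs is generated by a uniformiser

`A ⊂ B` discrete valuation rings, `K = Frac A`, `L ⊇ K` finite of degree `n`, `B` the integral
closure of `A` in `L`, and `v_B(a) = n · v_A(a)` for `a ∈ A` (total ramification).  For a
uniformiser `ϖ` of `B`:

* `FLD_natDegree_minpoly`  : `deg (minpoly A ϖ) = n`;
* `FLD_adjoin_field_eq_top`: `K[ϖ] = L`;
* `FLD_exists_comb`        : every `x ∈ B` is `∑_{j<n} b_j ϖ^j` with `b_j ∈ A`;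
* `FLD_adjoin_eq_top`      : `A[ϖ] = B`.
-/

set_option autoImplicit false

namespace Fermat.Agent.S56.H176

open IsDiscreteValuationRing Polynomial

section Basis

variable {A : Type*} [CommRing A] [IsDomain A] [IsDiscreteValuationRing A]
  {B : Type*} [CommRing B] [IsDomain B] [IsDiscreteValuationRing B] [Algebra A B]

omit [IsDomain A] [IsDiscreteValuationRing A] [IsDomain B] [IsDiscreteValuationRing B] in
/-- `aeval` as a sum over `range n`. -/
theorem FLD_aeval_eq_sum {n : ℕ} (q : A[X]) (hq : q.natDegree < n) (x : B) :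
    aeval x q = ∑ i ∈ Finset.range n, algebraMap A B (q.coeff i) * x ^ i := by
  rw [aeval_eq_sum_range' hq]
  simp [Algebra.smul_def]

/-- A nonzero polynomial over `A` killing a uniformiser of `B` has degree at least `n`. -/
theorem FLD_le_natDegree_of_aeval_eq_zero {n : ℕ}
    (hram : ∀ a : A, addVal B (algebraMap A B a) = n • addVal A a)
    {ϖ : B} (hϖ : addVal B ϖ = 1) (q : A[X]) (hq0 : q ≠ 0) (h : aeval ϖ q = 0) :
    n ≤ q.natDegree := by
  by_contra hlt
  rw [not_le] at hlt
  rw [FLD_aeval_eq_sum q hlt] at h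
  have := FLD_coeff_eq_zero hram hϖ (fun i => q.coeff i) h hlt
  exact hq0 (leadingCoeff_eq_zero.mp this)

end Basis

section Field

variable (A K : Type*) [CommRing A] [IsDomain A] [IsDiscreteValuationRing A]
  [Field K] [Algebra A K] [IsFractionRing A K]
  (L : Type*) [Field L] [Algebra K L] [FiniteDimensional K L]
  [Algebra A L] [IsScalarTower A K L]
  (B : Type*) [CommRing B] [IsDomain B] [IsDiscreteValuationRing B] [Algebra B L]
  [IsIntegralClosure B A L] [Algebra A B] [IsScalarTower A B L]

include K L in
/-- The minimal polynomial of a uniformiser has degree `[L : K]`. -/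
theorem FLD_natDegree_minpoly
    (hram : ∀ a : A, addVal B (algebraMap A B a) = (Module.finrank K L) • addVal A a)
    {ϖ : B} (hϖ : addVal B ϖ = 1) :
    (minpoly A ϖ).natDegree = Module.finrank K L := by
  have hint : IsIntegral A ϖ := IsIntegralClosure.isIntegral A L ϖ
  apply le_antisymm
  · have h1 : minpoly K (algebraMap B L ϖ) = (minpoly A ϖ).map (algebraMap A K) :=
      minpoly.isIntegrallyClosed_eq_field_fractions K L hint
    have h2 : ((minpoly A ϖ).map (algebraMap A K)).natDegree = (minpoly A ϖ).natDegree :=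
      (minpoly.monic hint).natDegree_map _
    rw [← h2, ← h1]
    exact minpoly.natDegree_le _
  · exact FLD_le_natDegree_of_aeval_eq_zero hram hϖ _ (minpoly.ne_zero hint) (minpoly.aeval A ϖ)

include A in
/-- A uniformiser generates `L` over `K`. -/
theorem FLD_adjoin_field_eq_top
    (hram : ∀ a : A, addVal B (algebraMap A B a) = (Module.finrank K L) • addVal A a)
    {ϖ : B} (hϖ : addVal B ϖ = 1) :
    Algebra.adjoin K {algebraMap B L ϖ} = ⊤ := by
  have hint : IsIntegral A ϖ := IsIntegralClosure.isIntegral A L ϖ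
  have hintK : IsIntegral K (algebraMap B L ϖ) := Algebra.IsIntegral.isIntegral _
  have h1 : minpoly K (algebraMap B L ϖ) = (minpoly A ϖ).map (algebraMap A K) :=
    minpoly.isIntegrallyClosed_eq_field_fractions K L hint
  have h2 : (minpoly K (algebraMap B L ϖ)).natDegree = Module.finrank K L := by
    rw [h1, (minpoly.monic hint).natDegree_map, FLD_natDegree_minpoly A K L B hram hϖ]
  have h3 := (Field.primitive_element_iff_minpoly_natDegree_eq K (algebraMap B L ϖ)).mpr h2
  rw [← IntermediateField.adjoin_simple_toSubalgebra_of_isAlgebraic hintK.isAlgebraic, h3]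
  rfl

include K L in
/-- Every element of `B` is an `A`-polynomial of degree `< n` in a uniformiser. -/
theorem FLD_exists_comb
    (hram : ∀ a : A, addVal B (algebraMap A B a) = (Module.finrank K L) • addVal A a)
    {ϖ : B} (hϖ : addVal B ϖ = 1) (x : B) :
    ∃ r : A[X], r.natDegree < Module.finrank K L ∧ aeval ϖ r = x := by
  classical
  set n := Module.finrank K L with hn
  have hnpos : 0 < n := Module.finrank_pos
  have hint : IsIntegral A ϖ := IsIntegralClosure.isIntegral A L ϖ
  have hinj : Function.Injective (algebraMap B L) := IsIntegralClosure.algebraMap_injective B A L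
  have hinjA : Function.Injective (algebraMap A B) := by
    intro a b hab
    have h1 : addVal B (algebraMap A B (a - b)) = ⊤ := by
      rw [map_sub, hab, sub_self, addVal_zero]
    rw [hram] at h1
    have h2 : addVal A (a - b) = ⊤ := by
      by_contra hne
      obtain ⟨t, ht⟩ := ENat.ne_top_iff_exists.mp hne
      rw [← ht] at h1
      have : ((n * t : ℕ) : ℕ∞) ≠ ⊤ := ENat.natCast_ne_top _
      apply this
      simpa using h1
    exact sub_eq_zero.mp (addVal_eq_top_iff.mp h2)
  -- step 1: a `K`-polynomial
  have htop := FLD_adjoin_field_eq_top A K L B hram hϖ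
  have hx : algebraMap B L x ∈ Algebra.adjoin K {algebraMap B L ϖ} := by
    rw [htop]; exact Algebra.mem_top
  rw [Algebra.adjoin_singleton_eq_range_aeval] at hx
  obtain ⟨q0, hq0⟩ := hx
  -- step 2: reduce the degree
  have h1 : minpoly K (algebraMap B L ϖ) = (minpoly A ϖ).map (algebraMap A K) :=
    minpoly.isIntegrallyClosed_eq_field_fractions K L hint
  have hintK : IsIntegral K (algebraMap B L ϖ) := Algebra.IsIntegral.isIntegral _
  have hmon : (minpoly K (algebraMap B L ϖ)).Monic := minpoly.monic hintK
  have hdeg : (minpoly K (algebraMap B L ϖ)).natDegree = n := by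
    rw [h1, (minpoly.monic hint).natDegree_map, FLD_natDegree_minpoly A K L B hram hϖ]
  have hne1 : minpoly K (algebraMap B L ϖ) ≠ 1 := by
    intro h
    rw [h, natDegree_one] at hdeg
    omega
  set q1 := q0 %ₘ minpoly K (algebraMap B L ϖ) with hq1
  have hq1deg : q1.natDegree < n := by
    rw [← hdeg]
    exact natDegree_modByMonic_lt q0 hmon hne1
  have hq1ev : aeval (algebraMap B L ϖ) q1 = algebraMap B L x := by
    rw [hq1, aeval_modByMonic_eq_self_of_root (minpoly.aeval K _)]
    exact hq0
  -- step 3: clear denominators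
  obtain ⟨d, hd, hr⟩ := IsLocalization.integerNormalization_spec (nonZeroDivisors A) q1
  set r := IsLocalization.integerNormalization (nonZeroDivisors A) q1 with hrdef
  have hd0 : d ≠ 0 := nonZeroDivisors.ne_zero hd
  have hrdeg : r.natDegree < n := by
    refine lt_of_le_of_lt ?_ hq1deg
    rw [natDegree_le_iff_coeff_eq_zero]
    intro N hN
    have hsupp := IsLocalization.integerNormalization_support (nonZeroDivisors A) q1
    by_contra hne
    have : N ∈ q1.support := hsupp (mem_support_iff.mpr hne)
    exact (mem_support_iff.mp this) (coeff_eq_zero_of_natDegree_lt hN)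
  -- step 4: `aeval ϖ r = d • x`
  have hrx : aeval ϖ r = algebraMap A B d * x := by
    apply hinj
    rw [map_mul, ← hq1ev, ← aeval_algebraMap_apply, ← aeval_map_algebraMap K, hr,
      ← IsScalarTower.algebraMap_apply, IsScalarTower.algebraMap_apply A K L,
      Algebra.smul_def, map_mul]
    congr 1
    simp
  -- step 5: all coefficients of `r` are divisible by `d`
  have hdvd : ∀ i, d ∣ r.coeff i := by
    intro i
    by_cases hi : i < n
    · rw [← addVal_le_iff_dvd]
      have h2 := FLD_addVal_sum_le hram hϖ (fun j => r.coeff j) hi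
      rw [← FLD_aeval_eq_sum r hrdeg ϖ, hrx, addVal_mul, hram] at h2
      have hdv : addVal A d ≠ ⊤ := fun h => hd0 (addVal_eq_top_iff.mp h)
      obtain ⟨m, hm⟩ := ENat.ne_top_iff_exists.mp hdv
      by_cases hc : addVal A (r.coeff i) = ⊤
      · rw [hc]; exact le_top
      obtain ⟨t, ht⟩ := ENat.ne_top_iff_exists.mp hc
      rw [← hm, ← ht] at h2 ⊢
      have h3 : ((n * m : ℕ) : ℕ∞) ≤ ((n * t + i : ℕ) : ℕ∞) := by
        refine le_trans ?_ (le_trans h2 ?_)
        · have : ((n * m : ℕ) : ℕ∞) = n • (m : ℕ∞) := by simp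
          rw [this]
          exact le_self_add
        · have : ((n * t + i : ℕ) : ℕ∞) = n • (t : ℕ∞) + (i : ℕ∞) := by simp
          rw [this]
      have h4 : n * m ≤ n * t + i := by exact_mod_cast h3
      have h5 : m ≤ t := by
        by_contra hlt
        rw [not_le] at hlt
        have : n * (t + 1) ≤ n * m := Nat.mul_le_mul_left n hlt
        nlinarith
      exact_mod_cast h5
    · rw [coeff_eq_zero_of_natDegree_lt (lt_of_lt_of_le hrdeg (not_lt.mp hi))]
      exact dvd_zero d
  obtain ⟨r', hr'⟩ := (C_dvd_iff_dvd_coeff d r).mpr hdvd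
  refine ⟨r', ?_, ?_⟩
  · rw [← natDegree_C_mul (p := r') hd0, ← hr']
    exact hrdeg
  · have hdB : algebraMap A B d ≠ 0 := fun h => hd0 (hinjA (by rw [h, map_zero]))
    apply mul_left_cancel₀ hdB
    rw [← hrx, hr', map_mul, aeval_C]

include K L in
/-- A uniformiser generates `B` as an `A`-algebra. -/
theorem FLD_adjoin_eq_top
    (hram : ∀ a : A, addVal B (algebraMap A B a) = (Module.finrank K L) • addVal A a)
    {ϖ : B} (hϖ : addVal B ϖ = 1) :
    Algebra.adjoin A {ϖ} = ⊤ := by
  rw [eq_top_iff]
  intro x _
  obtain ⟨r, -, hr⟩ := FLD_exists_comb A K L B hram hϖ x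
  rw [← hr]
  exact aeval_mem_adjoin_singleton A ϖ

end Field

end Fermat.Agent.S56.H176
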