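import Mathlib
import Fermat.Agent.S56.H176.FLDBasis

/-!
# S56 / FL-D, part 3: the different of a totally ramified extension and Eisenstein perturbation

Setting of `FLDBasis`.  For a uniformiser `ϖ` of `B` with minimal polynomial `G` over `A`:

* `FLD_differentIdeal_eq` : `differentIdeal A B = (G'(ϖ))`;
* `FLD_addVal_deriv_le`   : `v_B(G'(ϖ)) ≤ n · v_A(k · G_k) + (k - 1)` for `1 ≤ k ≤ n`;
* `FLD_addVal_deriv_le_of_perturb` : if a second uniformiser `ϖ'` has minimal polynomial
  `G + p X^k` (`1 ≤ k < n`, `k` a unit of `A`), then `v_B(G'(ϖ)) ≤ n · v_A(p) + (k - 1)`.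
-/

set_option autoImplicit false

namespace Fermat.Agent.S56.H176

open IsDiscreteValuationRing Polynomial

section Diff

variable (A K : Type*) [CommRing A] [IsDomain A] [IsDiscreteValuationRing A]
  [Field K] [Algebra A K] [IsFractionRing A K]
  (L : Type*) [Field L] [Algebra K L] [FiniteDimensional K L]
  [Algebra A L] [IsScalarTower A K L]
  (B : Type*) [CommRing B] [IsDomain B] [IsDiscreteValuationRing B] [Algebra B L]
  [IsIntegralClosure B A L] [Algebra A B] [IsScalarTower A B L]

include K L in
/-- The different is generated by `G'(ϖ)`. -/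
theorem FLD_differentIdeal_eq [Algebra.IsSeparable K L] [Module.IsTorsionFree A B]
    (hram : ∀ a : A, addVal B (algebraMap A B a) = (Module.finrank K L) • addVal A a)
    {ϖ : B} (hϖ : addVal B ϖ = 1) :
    differentIdeal A B = Ideal.span {aeval ϖ (derivative (minpoly A ϖ))} := by
  have h1 := conductor_mul_differentIdeal A K L ϖ (FLD_adjoin_field_eq_top A K L B hram hϖ)
  rw [conductor_eq_top_of_adjoin_eq_top (FLD_adjoin_eq_top A K L B hram hϖ), Ideal.top_mul] at h1
  exact h1

include K L in
/-- `v_B(G'(ϖ)) ≤ n v_A(k G_k) + (k - 1)`. -/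
theorem FLD_addVal_deriv_le
    (hram : ∀ a : A, addVal B (algebraMap A B a) = (Module.finrank K L) • addVal A a)
    {ϖ : B} (hϖ : addVal B ϖ = 1) {k : ℕ} (hk1 : 1 ≤ k) (hkn : k ≤ Module.finrank K L) :
    addVal B (aeval ϖ (derivative (minpoly A ϖ))) ≤
      (Module.finrank K L) • addVal A ((minpoly A ϖ).coeff k * (k : A)) + ((k - 1 : ℕ) : ℕ∞) := by
  have hdeg := FLD_natDegree_minpoly A K L B hram hϖ
  have hnpos : 0 < Module.finrank K L := Module.finrank_pos
  have hdlt : (derivative (minpoly A ϖ)).natDegree < Module.finrank K L := by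
    rw [← hdeg]
    apply natDegree_derivative_lt
    rw [hdeg]
    omega
  rw [FLD_aeval_eq_sum _ hdlt]
  have hk' : k - 1 < Module.finrank K L := by omega
  have := FLD_addVal_sum_le hram hϖ (fun i => (derivative (minpoly A ϖ)).coeff i) hk'
  refine le_trans this ?_
  rw [coeff_derivative]
  have hkk : k - 1 + 1 = k := by omega
  rw [hkk]
  have : ((k - 1 : ℕ) : A) + 1 = (k : A) := by
    have : ((k - 1 + 1 : ℕ) : A) = (k : A) := by rw [hkk]
    rw [← this]
    push_cast
    rfl
  rw [this]

end Diff

end Fermat.Agent.S56.H176
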