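import Mathlib
import Fermat.Agent.S56.H176.FLDDiff

/-!
# S56 / FL-D, part 4: Eisenstein polynomials and the perturbation comparison

* `FLD_exists_ram`        : an injective local homomorphism of DVRs has a ramification index;
* `FLD_eisenstein_root`   : a root `x` of an Eisenstein polynomial of degree `n` in a DVR of
  ramification index `e` over `A` satisfies `n · v(x) = e`;
* `FLD_minpoly_coeff_ge`, `FLD_minpoly_coeff_zero` : the minimal polynomial of a uniformiser of a
  totally ramified extension is Eisenstein;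
* `FLD_root_perturb`      : a root in `B` of `G + p X^k` is a uniformiser with that minimal
  polynomial;
* `FLD_addVal_deriv_le_of_root` : **comparison**: if `G + p X^k` has a root in `B`
  (`1 ≤ k < n`, `k` a unit of `A`, `p ∈ m_A`), then `v_B(G'(ϖ)) ≤ n · v_A(p) + (k - 1)`.
-/

set_option autoImplicit false

namespace Fermat.Agent.S56.H176

open IsDiscreteValuationRing Polynomial

section Ram

variable {A : Type*} [CommRing A] [IsDomain A] [IsDiscreteValuationRing A]
  {C : Type*} [CommRing C] [IsDomain C] [IsDiscreteValuationRing C] [Algebra A C]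

/-- An injective local homomorphism of discrete valuation rings has a ramification index. -/
theorem FLD_exists_ram (hinj : Function.Injective (algebraMap A C))
    (hloc : IsLocalHom (algebraMap A C)) :
    ∃ e : ℕ, e ≠ 0 ∧ ∀ a : A, addVal C (algebraMap A C a) = e • addVal A a := by
  obtain ⟨π, hπ⟩ := exists_irreducible A
  have hπ0 : algebraMap A C π ≠ 0 := fun h => hπ.ne_zero (hinj (by rw [h, map_zero]))
  have hne : addVal C (algebraMap A C π) ≠ ⊤ := fun h => hπ0 (addVal_eq_top_iff.mp h)
  obtain ⟨e, he⟩ := ENat.ne_top_iff_exists.mp hne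
  have he0 : e ≠ 0 := by
    rintro rfl
    have h1 : addVal C (algebraMap A C π) = 0 := by rw [← he]; rfl
    have h2 : IsUnit (algebraMap A C π) := addVal_eq_zero_iff.mp h1
    exact hπ.not_isUnit (hloc.map_nonunit π h2)
  refine ⟨e, he0, fun a => ?_⟩
  by_cases ha : a = 0
  · subst ha
    rw [map_zero, addVal_zero]
    simp [he0]
  · obtain ⟨m, u, rfl⟩ := eq_unit_mul_pow_irreducible ha hπ
    rw [map_mul, map_pow, addVal_mul, addVal_pow, ← he, addVal_def' u hπ m]
    have hu : IsUnit (algebraMap A C (u : A)) := u.isUnit.map _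
    rw [addVal_eq_zero_iff.mpr hu, zero_add]
    simp [mul_comm]

/-- A root of an Eisenstein polynomial of degree `n` has valuation `e / n`. -/
theorem FLD_eisenstein_root {e n : ℕ} (he : e ≠ 0)
    (hram : ∀ a : A, addVal C (algebraMap A C a) = e • addVal A a)
    (F : A[X]) (hF : F.Monic) (hn : F.natDegree = n) (hn0 : n ≠ 0)
    (hcoef : ∀ j < n, 1 ≤ addVal A (F.coeff j)) (h0 : addVal A (F.coeff 0) = 1)
    (x : C) (hx : aeval x F = 0) : n • addVal C x = (e : ℕ∞) := by
  classical
  set S : C := ∑ j ∈ Finset.range n, algebraMap A C (F.coeff j) * x ^ j with hS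
  have hsum : x ^ n + S = 0 := by
    have h1 := congrArg (aeval x) hF.as_sum
    rw [hx, hn] at h1
    simp only [map_add, map_pow, aeval_X, map_sum, map_mul, aeval_C] at h1
    exact h1.symm
  have hxn : addVal C (x ^ n) = addVal C S := by
    have : x ^ n = -S := eq_neg_of_add_eq_zero_left hsum
    rw [this, AddValuation.map_neg]
  -- every term has valuation `≥ e`
  have hterm : ∀ j < n, (e : ℕ∞) ≤ addVal C (algebraMap A C (F.coeff j) * x ^ j) := by
    intro j hj
    rw [addVal_mul, hram]
    refine le_trans ?_ le_self_add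
    calc (e : ℕ∞) = e • (1 : ℕ∞) := by simp
      _ ≤ e • addVal A (F.coeff j) := nsmul_le_nsmul_right (hcoef j hj) e
  have hSge : (e : ℕ∞) ≤ addVal C S :=
    FLD_le_val_sum (addVal C) _ _ _ (fun j hj => hterm j (Finset.mem_range.mp hj))
  -- `x` is not a unit
  have hx1 : 1 ≤ addVal C x := by
    rw [Order.one_le_iff_ne_zero]
    intro h
    have : addVal C (x ^ n) = 0 := by rw [addVal_pow, h, nsmul_zero]
    rw [hxn] at this
    rw [this] at hSge
    have : (e : ℕ∞) = 0 := le_antisymm hSge zero_le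
    exact he (by exact_mod_cast this)
  -- the constant term is the unique term of smallest valuation
  have h0mem : 0 ∈ Finset.range n := Finset.mem_range.mpr (Nat.pos_of_ne_zero hn0)
  have hv0 : addVal C (algebraMap A C (F.coeff 0) * x ^ 0) = (e : ℕ∞) := by
    rw [pow_zero, mul_one, hram, h0]
    simp
  have hSeq : addVal C S = (e : ℕ∞) := by
    rw [← hv0]
    refine FLD_val_sum_eq_of_lt (addVal C) _ _ 0 h0mem ?_
    intro j hj hj0
    rw [hv0, addVal_mul, hram, addVal_pow]
    have hj' := Finset.mem_range.mp hj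
    have h1 : (e : ℕ∞) ≤ e • addVal A (F.coeff j) := by
      calc (e : ℕ∞) = e • (1 : ℕ∞) := by simp
        _ ≤ e • addVal A (F.coeff j) := nsmul_le_nsmul_right (hcoef j hj') e
    have h2 : (1 : ℕ∞) ≤ j • addVal C x := by
      calc (1 : ℕ∞) ≤ addVal C x := hx1
        _ = 1 • addVal C x := (one_nsmul _).symm
        _ ≤ j • addVal C x := nsmul_le_nsmul_left zero_le (Nat.one_le_iff_ne_zero.mpr hj0)
    calc (e : ℕ∞) < (e : ℕ∞) + 1 := by
          exact_mod_cast Nat.lt_succ_self e
      _ ≤ e • addVal A (F.coeff j) + j • addVal C x := add_le_add h1 h2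
  rw [← addVal_pow, hxn, hSeq]

end Ram

section Perturb

variable (A K : Type*) [CommRing A] [IsDomain A] [IsDiscreteValuationRing A]
  [Field K] [Algebra A K] [IsFractionRing A K]
  (L : Type*) [Field L] [Algebra K L] [FiniteDimensional K L]
  [Algebra A L] [IsScalarTower A K L]
  (B : Type*) [CommRing B] [IsDomain B] [IsDiscreteValuationRing B] [Algebra B L]
  [IsIntegralClosure B A L] [Algebra A B] [IsScalarTower A B L]

include K L in
/-- The relation `ϖ^n = -∑_{j<n} G_j ϖ^j` for the minimal polynomial `G` of a uniformiser. -/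
theorem FLD_minpoly_sum
    (hram : ∀ a : A, addVal B (algebraMap A B a) = (Module.finrank K L) • addVal A a)
    {ϖ : B} (hϖ : addVal B ϖ = 1) :
    addVal B (∑ j ∈ Finset.range (Module.finrank K L),
      algebraMap A B ((minpoly A ϖ).coeff j) * ϖ ^ j) = (Module.finrank K L : ℕ∞) := by
  have hint : IsIntegral A ϖ := IsIntegralClosure.isIntegral A L ϖ
  have hdeg := FLD_natDegree_minpoly A K L B hram hϖ
  have h1 := congrArg (aeval ϖ) (minpoly.monic hint).as_sum
  rw [minpoly.aeval, hdeg] at h1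
  simp only [map_add, map_pow, aeval_X, map_sum, map_mul, aeval_C] at h1
  have h2 : (∑ j ∈ Finset.range (Module.finrank K L),
      algebraMap A B ((minpoly A ϖ).coeff j) * ϖ ^ j) = -(ϖ ^ Module.finrank K L) :=
    eq_neg_of_add_eq_zero_right h1.symm
  rw [h2, AddValuation.map_neg, addVal_pow, hϖ, nsmul_one]

include K L in
/-- The minimal polynomial of a uniformiser is Eisenstein: lower coefficients are non-units. -/
theorem FLD_minpoly_coeff_ge
    (hram : ∀ a : A, addVal B (algebraMap A B a) = (Module.finrank K L) • addVal A a)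
    {ϖ : B} (hϖ : addVal B ϖ = 1) {j : ℕ} (hj : j < Module.finrank K L) :
    1 ≤ addVal A ((minpoly A ϖ).coeff j) := by
  have h1 := FLD_addVal_sum_le hram hϖ (fun i => (minpoly A ϖ).coeff i) hj
  rw [FLD_minpoly_sum A K L B hram hϖ] at h1
  rw [Order.one_le_iff_ne_zero]
  intro h0
  rw [h0, nsmul_zero, zero_add] at h1
  have : Module.finrank K L ≤ j := by exact_mod_cast h1
  omega

include K L in
/-- The minimal polynomial of a uniformiser is Eisenstein: the constant term is a uniformiser. -/
theorem FLD_minpoly_coeff_zero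
    (hram : ∀ a : A, addVal B (algebraMap A B a) = (Module.finrank K L) • addVal A a)
    {ϖ : B} (hϖ : addVal B ϖ = 1) :
    addVal A ((minpoly A ϖ).coeff 0) = 1 := by
  set n := Module.finrank K L with hn
  have hnpos : 0 < n := Module.finrank_pos
  have hge := FLD_minpoly_coeff_ge A K L B hram hϖ hnpos
  by_contra hne
  have h2 : (2 : ℕ∞) ≤ addVal A ((minpoly A ϖ).coeff 0) := by
    by_cases htop : addVal A ((minpoly A ϖ).coeff 0) = ⊤
    · rw [htop]; exact le_top
    obtain ⟨t, ht⟩ := ENat.ne_top_iff_exists.mp htop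
    rw [← ht] at hge hne ⊢
    have h1 : 1 ≤ t := by exact_mod_cast hge
    have h3 : t ≠ 1 := fun h => hne (by rw [h]; rfl)
    have : 2 ≤ t := by omega
    exact_mod_cast this
  have hbig : ((n + 1 : ℕ) : ℕ∞) ≤ addVal B (∑ j ∈ Finset.range n,
      algebraMap A B ((minpoly A ϖ).coeff j) * ϖ ^ j) := by
    refine FLD_le_addVal_sum hram hϖ (fun i => (minpoly A ϖ).coeff i) _ ?_
    intro j hj
    by_cases hj0 : j = 0
    · subst hj0
      refine le_trans ?_ le_self_add
      calc ((n + 1 : ℕ) : ℕ∞) ≤ ((n * 2 : ℕ) : ℕ∞) := by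
            exact_mod_cast (by omega : n + 1 ≤ n * 2)
        _ = n • (2 : ℕ∞) := by simp
        _ ≤ n • addVal A ((minpoly A ϖ).coeff 0) := nsmul_le_nsmul_right h2 n
    · have h1 : (n : ℕ∞) ≤ n • addVal A ((minpoly A ϖ).coeff j) := by
        calc (n : ℕ∞) = n • (1 : ℕ∞) := by simp
          _ ≤ n • addVal A ((minpoly A ϖ).coeff j) :=
            nsmul_le_nsmul_right (FLD_minpoly_coeff_ge A K L B hram hϖ hj) n
      have h3 : (1 : ℕ∞) ≤ (j : ℕ∞) := by
        exact_mod_cast Nat.one_le_iff_ne_zero.mpr hj0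
      calc ((n + 1 : ℕ) : ℕ∞) = (n : ℕ∞) + 1 := by push_cast; rfl
        _ ≤ n • addVal A ((minpoly A ϖ).coeff j) + (j : ℕ∞) := add_le_add h1 h3
  rw [FLD_minpoly_sum A K L B hram hϖ] at hbig
  have : n + 1 ≤ n := by exact_mod_cast hbig
  omega

include K L in
/-- A root in `B` of the perturbed polynomial `G + p X^k` (`1 ≤ k < n`, `p ∈ m_A`) is a
uniformiser, with minimal polynomial `G + p X^k`. -/
theorem FLD_root_perturb [Module.IsTorsionFree A B]
    (hram : ∀ a : A, addVal B (algebraMap A B a) = (Module.finrank K L) • addVal A a)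
    {ϖ : B} (hϖ : addVal B ϖ = 1) (p : A) (hp : 1 ≤ addVal A p) {k : ℕ} (hk1 : 1 ≤ k)
    (hkn : k < Module.finrank K L) (ϖ' : B)
    (hroot : aeval ϖ' (minpoly A ϖ + C p * X ^ k) = 0) :
    addVal B ϖ' = 1 ∧ minpoly A ϖ' = minpoly A ϖ + C p * X ^ k := by
  set n := Module.finrank K L with hn
  have hnpos : 0 < n := Module.finrank_pos
  have hint : IsIntegral A ϖ := IsIntegralClosure.isIntegral A L ϖ
  have hint' : IsIntegral A ϖ' := IsIntegralClosure.isIntegral A L ϖ'
  have hdeg := FLD_natDegree_minpoly A K L B hram hϖ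
  have hmon := minpoly.monic hint
  have hlt : (C p * X ^ k : A[X]).natDegree < (minpoly A ϖ).natDegree := by
    rw [hdeg]
    exact lt_of_le_of_lt (natDegree_C_mul_X_pow_le p k) hkn
  have hdlt : (C p * X ^ k : A[X]).degree < (minpoly A ϖ).degree := by
    by_cases h0 : (C p * X ^ k : A[X]) = 0
    · rw [h0, degree_zero]
      exact bot_lt_iff_ne_bot.mpr (fun h => hmon.ne_zero (degree_eq_bot.mp h))
    · exact degree_lt_degree hlt
  have hmon' : (minpoly A ϖ + C p * X ^ k).Monic := hmon.add_of_left hdlt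
  have hdeg' : (minpoly A ϖ + C p * X ^ k).natDegree = n := by
    rw [natDegree_add_eq_left_of_natDegree_lt hlt, hdeg]
  have hcoef : ∀ j < n, 1 ≤ addVal A ((minpoly A ϖ + C p * X ^ k).coeff j) := by
    intro j hj
    rw [coeff_add, coeff_C_mul, coeff_X_pow]
    refine le_trans ?_ (addVal_add)
    refine le_min (FLD_minpoly_coeff_ge A K L B hram hϖ hj) ?_
    split_ifs
    · rw [mul_one]; exact hp
    · rw [mul_zero, addVal_zero]; exact le_top
  have hc0 : addVal A ((minpoly A ϖ + C p * X ^ k).coeff 0) = 1 := by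
    rw [coeff_add, coeff_C_mul, coeff_X_pow, if_neg (by omega), mul_zero, add_zero]
    exact FLD_minpoly_coeff_zero A K L B hram hϖ
  have h1 := FLD_eisenstein_root (Nat.pos_iff_ne_zero.mp hnpos) hram _ hmon' hdeg'
    (Nat.pos_iff_ne_zero.mp hnpos) hcoef hc0 ϖ' hroot
  have hϖ' : addVal B ϖ' = 1 := by
    by_cases htop : addVal B ϖ' = ⊤
    · rw [htop] at h1
      have : (⊤ : ℕ∞) = (n : ℕ∞) := by
        rw [← h1]; simp [Nat.pos_iff_ne_zero.mp hnpos]
      exact absurd this.symm (ENat.natCast_ne_top n)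
    obtain ⟨t, ht⟩ := ENat.ne_top_iff_exists.mp htop
    rw [← ht] at h1 ⊢
    have h2 : ((n * t : ℕ) : ℕ∞) = (n : ℕ∞) := by
      rw [← h1]; simp
    have h3 : n * t = n := by exact_mod_cast h2
    have h4 : t = 1 := by
      have : n * t = n * 1 := by rw [h3, mul_one]
      exact Nat.eq_of_mul_eq_mul_left hnpos this
    rw [h4]; rfl
  refine ⟨hϖ', ?_⟩
  have hdvd : minpoly A ϖ' ∣ minpoly A ϖ + C p * X ^ k :=
    minpoly.isIntegrallyClosed_dvd hint' hroot
  have hdeg'' := FLD_natDegree_minpoly A K L B hram hϖ'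
  exact (eq_of_monic_of_dvd_of_natDegree_le (minpoly.monic hint') hmon' hdvd
    (by rw [hdeg', hdeg''])).symm

include K L in
/-- **Comparison.**  If the perturbed polynomial `G + p X^k` (`1 ≤ k < n`, `k` a unit of `A`,
`p ∈ m_A`) has a root in `B`, then `v_B(G'(ϖ)) ≤ n · v_A(p) + (k - 1)`. -/
theorem FLD_addVal_deriv_le_of_root [Algebra.IsSeparable K L] [Module.IsTorsionFree A B]
    (hram : ∀ a : A, addVal B (algebraMap A B a) = (Module.finrank K L) • addVal A a)
    {ϖ : B} (hϖ : addVal B ϖ = 1) (p : A) (hp : 1 ≤ addVal A p) {k : ℕ} (hk1 : 1 ≤ k)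
    (hkn : k < Module.finrank K L) (hku : addVal A (k : A) = 0) (ϖ' : B)
    (hroot : aeval ϖ' (minpoly A ϖ + C p * X ^ k) = 0) :
    addVal B (aeval ϖ (derivative (minpoly A ϖ))) ≤
      (Module.finrank K L) • addVal A p + ((k - 1 : ℕ) : ℕ∞) := by
  set n := Module.finrank K L with hn
  have hnpos : 0 < n := Module.finrank_pos
  obtain ⟨hϖ', hmin'⟩ := FLD_root_perturb A K L B hram hϖ p hp hk1 hkn ϖ' hroot
  -- both derivatives generate the different
  have hd1 := FLD_differentIdeal_eq A K L B hram hϖ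
  have hd2 := FLD_differentIdeal_eq A K L B hram hϖ'
  have hassoc : Associated (aeval ϖ (derivative (minpoly A ϖ)))
      (aeval ϖ' (derivative (minpoly A ϖ'))) := by
    rw [← Ideal.span_singleton_eq_span_singleton, ← hd1, ← hd2]
  have hval : addVal B (aeval ϖ (derivative (minpoly A ϖ))) =
      addVal B (aeval ϖ' (derivative (minpoly A ϖ'))) :=
    (addVal_eq_iff_associated _ _).mpr hassoc
  have hle1 := FLD_addVal_deriv_le A K L B hram hϖ hk1 hkn.le
  have hle2 := FLD_addVal_deriv_le A K L B hram hϖ' hk1 hkn.le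
  rw [addVal_mul, hku, add_zero] at hle1 hle2
  rw [← hval] at hle2
  rw [hmin', coeff_add, coeff_C_mul, coeff_X_pow, if_pos rfl, mul_one] at hle2
  by_contra hcon
  rw [not_le] at hcon
  -- `v(G_k) > v(p)`
  have hptop : addVal A p ≠ ⊤ := by
    intro h
    rw [h] at hcon
    have : n • (⊤ : ℕ∞) + ((k - 1 : ℕ) : ℕ∞) = ⊤ := by
      simp [Nat.pos_iff_ne_zero.mp hnpos]
    rw [this] at hcon
    exact absurd hcon (not_lt.mpr le_top)
  obtain ⟨a, ha⟩ := ENat.ne_top_iff_exists.mp hptop
  have hlt : addVal A p < addVal A ((minpoly A ϖ).coeff k) := by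
    by_contra hge
    rw [not_lt] at hge
    have : n • addVal A ((minpoly A ϖ).coeff k) + ((k - 1 : ℕ) : ℕ∞) ≤
        n • addVal A p + ((k - 1 : ℕ) : ℕ∞) :=
      add_le_add (nsmul_le_nsmul_right hge n) le_rfl
    exact absurd (lt_of_lt_of_le hcon (le_trans hle1 this)) (lt_irrefl _)
  have hsum : addVal A ((minpoly A ϖ).coeff k + p) = addVal A p := by
    rw [add_comm]
    exact AddValuation.map_add_eq_of_lt_left (addVal A) hlt
  rw [hsum] at hle2
  exact absurd (lt_of_lt_of_le hcon hle2) (lt_irrefl _)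

end Perturb

end Fermat.Agent.S56.H176
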