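import Mathlib
import Fermat.Agent.S56.H176.FLDVal

/-!
# S56 / FL-D-UNR, part 3: equal residue fields imply total ramification

`A' ⊂ B` discrete valuation rings, `B` finite over `A'`, with the same residue field
(`hres : ∀ b, ∃ a, b - a ∈ 𝔪_B`).  Then `v_B(a) = n · v_{A'}(a)` for `a ∈ A'` with
`n = [Frac B : Frac A']` (`FLD_tot_hram`): the extension is totally ramified, and
`1, ϖ, …, ϖ^(n-1)` is an `A'`-basis of `B` for every uniformiser `ϖ` of `B`.
-/

set_option autoImplicit false
set_option linter.unusedSectionVars false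
set_option linter.style.haveILetI false

namespace Fermat.Agent.S56.H176

open IsDiscreteValuationRing

attribute [local instance] FractionRing.liftAlgebra FractionRing.isScalarTower_liftAlgebra

section Tot

variable {A' : Type*} [CommRing A'] [IsDomain A'] [IsDiscreteValuationRing A']
  {B : Type*} [CommRing B] [IsDomain B] [IsDiscreteValuationRing B] [Algebra A' B]
  [Module.Finite A' B] [FaithfulSMul A' B]

variable (A' B) in
/-- The ramification index. -/
theorem FLD_tot_exists_ramIdx :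
    ∃ e : ℕ, 0 < e ∧ ∀ a : A', addVal B (algebraMap A' B a) = e • addVal A' a := by
  obtain ⟨ϖ', hϖ'⟩ := exists_irreducible A'
  have hne : algebraMap A' B ϖ' ≠ 0 := by
    intro h0
    exact hϖ'.ne_zero (FaithfulSMul.algebraMap_injective A' B (by rw [h0, map_zero]))
  have htop : addVal B (algebraMap A' B ϖ') ≠ ⊤ := fun h => hne (addVal_eq_top_iff.mp h)
  obtain ⟨e, he⟩ := ENat.ne_top_iff_exists.mp htop
  have he0 : 0 < e := by
    rcases Nat.eq_zero_or_pos e with h0 | h0
    · exfalso
      rw [h0] at he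
      have hu : IsUnit (algebraMap A' B ϖ') := addVal_eq_zero_iff.mp (by rw [← he]; rfl)
      exact hϖ'.not_isUnit (IsLocalHom.map_nonunit (f := algebraMap A' B) ϖ' hu)
    · exact h0
  refine ⟨e, he0, fun a => ?_⟩
  by_cases ha : a = 0
  · rw [ha, map_zero, addVal_zero, addVal_zero]
    have : e ≠ 0 := by omega
    simp [this]
  · obtain ⟨m, u, hu⟩ := eq_unit_mul_pow_irreducible ha hϖ'
    rw [hu, addVal_def' u hϖ' m, map_mul, map_pow, addVal_mul, addVal_pow, ← he,
      addVal_eq_zero_iff.mpr (u.isUnit.map (algebraMap A' B)), zero_add]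
    simp [mul_comm]

/-- `ϖ'` and `ϖ ^ e` are associated in `B`. -/
theorem FLD_tot_associated {e : ℕ}
    (hram : ∀ a : A', addVal B (algebraMap A' B a) = e • addVal A' a)
    {ϖ : B} (hϖ : addVal B ϖ = 1) {ϖ' : A'} (hϖ' : Irreducible ϖ') :
    Associated (ϖ ^ e) (algebraMap A' B ϖ') := by
  rw [← addVal_eq_iff_associated, addVal_pow, hϖ, hram, addVal_uniformizer hϖ']

/-- Approximation of `b : B` by `A'`-combinations of powers of a uniformiser. -/
theorem FLD_tot_approx (hres : ∀ b : B, ∃ a : A', b - algebraMap A' B a ∈ IsLocalRing.maximalIdeal B)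
    {ϖ : B} (hϖ : addVal B ϖ = 1) (e : ℕ) (b : B) (n : ℕ) (hn : n ≤ e) :
    ∃ s ∈ Submodule.span A' (Set.range fun j : Fin e => ϖ ^ (j : ℕ)), ∃ c : B,
      b - s = ϖ ^ n * c := by
  have hirr : Irreducible ϖ := by
    rw [irreducible_iff_uniformizer]
    apply le_antisymm
    · intro x hx
      rw [Ideal.mem_span_singleton, ← addVal_le_iff_dvd, hϖ]
      rw [IsLocalRing.mem_maximalIdeal, mem_nonunits_iff, ← addVal_eq_zero_iff] at hx
      exact Order.one_le_iff_pos.mpr (pos_iff_ne_zero.mpr hx)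
    · rw [Ideal.span_le]
      intro x hx
      rw [Set.mem_singleton_iff] at hx
      rw [hx, SetLike.mem_coe, IsLocalRing.mem_maximalIdeal, mem_nonunits_iff, ← addVal_eq_zero_iff, hϖ]
      exact one_ne_zero
  have hmax : IsLocalRing.maximalIdeal B = Ideal.span {ϖ} := (irreducible_iff_uniformizer ϖ).mp hirr
  induction n with
  | zero => exact ⟨0, Submodule.zero_mem _, b, by simp⟩
  | succ n ih =>
    obtain ⟨s, hs, c, hc⟩ := ih (by omega)
    obtain ⟨a, ha⟩ := hres c
    rw [hmax, Ideal.mem_span_singleton] at ha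
    obtain ⟨c', hc'⟩ := ha
    refine ⟨s + a • ϖ ^ n, Submodule.add_mem _ hs
      (Submodule.smul_mem _ _ (Submodule.subset_span ⟨⟨n, by omega⟩, rfl⟩)), c', ?_⟩
    have : b - (s + a • ϖ ^ n) = (b - s) - a • ϖ ^ n := by ring
    rw [this, hc, Algebra.smul_def, pow_succ, mul_assoc, ← hc']
    ring

/-- The powers `ϖ^j`, `j < e`, span `B` over `A'`. -/
theorem FLD_tot_span (hres : ∀ b : B, ∃ a : A', b - algebraMap A' B a ∈ IsLocalRing.maximalIdeal B)
    {e : ℕ} (hram : ∀ a : A', addVal B (algebraMap A' B a) = e • addVal A' a)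
    {ϖ : B} (hϖ : addVal B ϖ = 1) :
    Submodule.span A' (Set.range fun j : Fin e => ϖ ^ (j : ℕ)) = ⊤ := by
  obtain ⟨ϖ', hϖ'⟩ := exists_irreducible A'
  rw [← top_le_iff]
  apply Submodule.le_of_le_smul_of_le_jacobson_bot (I := IsLocalRing.maximalIdeal A')
  · exact Module.finite_def.mp inferInstance
  · exact (IsLocalRing.jacobson_eq_maximalIdeal ⊥ bot_ne_top).ge
  · intro b _
    obtain ⟨s, hs, c, hc⟩ := FLD_tot_approx hres hϖ e b e le_rfl
    obtain ⟨u, hu⟩ := FLD_tot_associated hram hϖ hϖ'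
    have hb : b = s + ϖ' • ((u⁻¹ : Bˣ) * c) := by
      rw [Algebra.smul_def, ← hu]
      have : ϖ ^ e * ↑u * (↑u⁻¹ * c) = ϖ ^ e * c := by
        rw [mul_assoc, ← mul_assoc (u : B), Units.mul_inv, one_mul]
      rw [this, ← hc]
      ring
    rw [hb]
    apply Submodule.add_mem_sup hs
    apply Submodule.smul_mem_smul _ Submodule.mem_top
    exact (IsLocalRing.mem_maximalIdeal _).mpr hϖ'.not_isUnit

/-- The powers `ϖ^j`, `j < e`, are linearly independent over `A'`. -/
theorem FLD_tot_linearIndependent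
    {e : ℕ} (hram : ∀ a : A', addVal B (algebraMap A' B a) = e • addVal A' a)
    {ϖ : B} (hϖ : addVal B ϖ = 1) :
    LinearIndependent A' (fun j : Fin e => ϖ ^ (j : ℕ)) := by
  rw [Fintype.linearIndependent_iff]
  intro c hc i
  have h1 := Fin.sum_univ_eq_sum_range
    (fun j => algebraMap A' B (if h : j < e then c ⟨j, h⟩ else 0) * ϖ ^ j) e
  have h2 : ∑ j ∈ Finset.range e,
      algebraMap A' B (if h : j < e then c ⟨j, h⟩ else 0) * ϖ ^ j = 0 := by
    rw [← h1, ← hc]
    refine Finset.sum_congr rfl fun j _ => ?_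
    rw [Algebra.smul_def]
    simp
  have := FLD_coeff_eq_zero hram hϖ (fun j => if h : j < e then c ⟨j, h⟩ else 0) h2 i.2
  simpa using this

/-- `[B : A'] = e`. -/
theorem FLD_tot_finrank (hres : ∀ b : B, ∃ a : A', b - algebraMap A' B a ∈ IsLocalRing.maximalIdeal B)
    {e : ℕ} (hram : ∀ a : A', addVal B (algebraMap A' B a) = e • addVal A' a) :
    Module.finrank A' B = e := by
  obtain ⟨ϖ, hϖ⟩ := exists_irreducible B
  have hϖ1 := addVal_uniformizer hϖ
  have b := Module.Basis.mk (FLD_tot_linearIndependent hram hϖ1)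
    (FLD_tot_span hres hram hϖ1).ge
  rw [Module.finrank_eq_card_basis b, Fintype.card_fin]

/-- `[Frac B : Frac A'] = e`. -/
theorem FLD_tot_finrank_frac
    (hres : ∀ b : B, ∃ a : A', b - algebraMap A' B a ∈ IsLocalRing.maximalIdeal B)
    {e : ℕ} (hram : ∀ a : A', addVal B (algebraMap A' B a) = e • addVal A' a) :
    Module.finrank (FractionRing A') (FractionRing B) = e := by
  rw [IsFractionRing.finrank_eq A' (FractionRing A') B (FractionRing B)]
  exact FLD_tot_finrank hres hram

/-- **Total ramification**: `v_B(a) = [Frac B : Frac A'] · v_{A'}(a)`. -/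
theorem FLD_tot_hram (hres : ∀ b : B, ∃ a : A', b - algebraMap A' B a ∈ IsLocalRing.maximalIdeal B)
    (a : A') : addVal B (algebraMap A' B a) =
      (Module.finrank (FractionRing A') (FractionRing B)) • addVal A' a := by
  obtain ⟨e, -, hram⟩ := FLD_tot_exists_ramIdx A' B
  rw [FLD_tot_finrank_frac hres hram]
  exact hram a

end Tot

end Fermat.Agent.S56.H176
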