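import Mathlib
import Fermat.Agent.S56.H176.FLDDiff
import Fermat.Agent.S56.H176.FLDUnrTot

/-!
# S56 / FL-D-UNR, part 4: the different of `B / A` through an unramified subring

`A ⊂ B' ⊂ B` discrete valuation rings (characteristic `0`, residue field of `A` finite), `B`
finite over `A`, with `𝔪_{B'} = 𝔪_A B'` (`B'/A` unramified) and `B' → B` inducing an isomorphism
on residue fields.  Then

* `FLD_unr_differentIdeal_eq_top` : `differentIdeal A B' = ⊤`;
* `FLD_unr_differentIdeal_tower`  : `differentIdeal A B = differentIdeal B' B`;
* `FLD_unr_differentIdeal_eq`     : `differentIdeal A B = (G'(ϖ))` for a uniformiser `ϖ` of `B`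
  with minimal polynomial `G` over `B'`.
-/

set_option autoImplicit false
set_option linter.unusedSectionVars false
set_option linter.style.haveILetI false

namespace Fermat.Agent.S56.H176

open IsDiscreteValuationRing Polynomial

attribute [local instance] FractionRing.liftAlgebra FractionRing.isScalarTower_liftAlgebra

section Sep

variable (A : Type*) [CommRing A] [IsDomain A] [IsDiscreteValuationRing A] [CharZero A]
  (B : Type*) [CommRing B] [IsDomain B] [IsDiscreteValuationRing B] [Algebra A B]
  [Module.Finite A B] [FaithfulSMul A B]

theorem FLD_finiteDimensional_frac : FiniteDimensional (FractionRing A) (FractionRing B) :=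
  .of_isLocalization A B (nonZeroDivisors A)

theorem FLD_isSeparable_frac : Algebra.IsSeparable (FractionRing A) (FractionRing B) := by
  haveI := FLD_finiteDimensional_frac A B
  haveI : CharZero (FractionRing A) :=
    charZero_of_injective_algebraMap (IsFractionRing.injective A (FractionRing A))
  infer_instance

end Sep

section Unr

variable {A : Type*} [CommRing A] [IsDomain A] [IsDiscreteValuationRing A] [CharZero A]
  {B' : Type*} [CommRing B'] [IsDomain B'] [IsDiscreteValuationRing B'] [Algebra A B']
  [Module.Finite A B'] [FaithfulSMul A B']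

/-- The different of an unramified extension is trivial. -/
theorem FLD_unr_differentIdeal_eq_top [Finite (IsLocalRing.ResidueField A)]
    (hunr : IsLocalRing.maximalIdeal B' =
      (IsLocalRing.maximalIdeal A).map (algebraMap A B')) :
    differentIdeal A B' = ⊤ := by
  haveI := FLD_isSeparable_frac A B'
  haveI : Finite (A ⧸ IsLocalRing.maximalIdeal A) := ‹Finite (IsLocalRing.ResidueField A)›
  by_contra hne
  have hle : differentIdeal A B' ≤ IsLocalRing.maximalIdeal B' :=
    IsLocalRing.le_maximalIdeal hne
  have hdvd : IsLocalRing.maximalIdeal B' ∣ differentIdeal A B' := Ideal.dvd_iff_le.mpr hle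
  refine not_dvd_differentIdeal_of_isCoprime A (p := IsLocalRing.maximalIdeal A)
    (IsLocalRing.maximalIdeal B') ⊤ ?_ ?_ hdvd
  · exact Ideal.isCoprime_iff_sup_eq.mpr (sup_top_eq _)
  · rw [Ideal.mul_top, hunr]

end Unr

section Tower

variable {A : Type*} [CommRing A] [IsDomain A] [IsDiscreteValuationRing A] [CharZero A]
  {B' : Type*} [CommRing B'] [IsDomain B'] [IsDiscreteValuationRing B'] [Algebra A B']
  [Module.Finite A B'] [FaithfulSMul A B']
  {B : Type*} [CommRing B] [IsDomain B] [IsDiscreteValuationRing B] [Algebra A B]
  [Algebra B' B] [IsScalarTower A B' B] [Module.Finite A B] [FaithfulSMul A B]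
  [Module.Finite B' B] [FaithfulSMul B' B]

/-- Transitivity of the different through an unramified subring. -/
theorem FLD_unr_differentIdeal_tower [Finite (IsLocalRing.ResidueField A)]
    (hunr : IsLocalRing.maximalIdeal B' =
      (IsLocalRing.maximalIdeal A).map (algebraMap A B')) :
    differentIdeal A B = differentIdeal B' B := by
  haveI := FLD_isSeparable_frac A B
  rw [differentIdeal_eq_differentIdeal_mul_differentIdeal A B' B,
    FLD_unr_differentIdeal_eq_top hunr, Ideal.map_top, Ideal.mul_top]

/-- The different of `B / A` is generated by `G'(ϖ)`, `G` the minimal polynomial over the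
unramified subring `B'` of a uniformiser `ϖ` of `B`. -/
theorem FLD_unr_differentIdeal_eq [Finite (IsLocalRing.ResidueField A)]
    (hunr : IsLocalRing.maximalIdeal B' =
      (IsLocalRing.maximalIdeal A).map (algebraMap A B'))
    (hres : ∀ b : B, ∃ a : B', b - algebraMap B' B a ∈ IsLocalRing.maximalIdeal B)
    {ϖ : B} (hϖ : addVal B ϖ = 1) :
    differentIdeal A B = Ideal.span {aeval ϖ (derivative (minpoly B' ϖ))} := by
  haveI : CharZero B' := charZero_of_injective_algebraMap (FaithfulSMul.algebraMap_injective A B')
  haveI := FLD_isSeparable_frac B' B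
  haveI := FLD_finiteDimensional_frac B' B
  rw [FLD_unr_differentIdeal_tower hunr]
  exact FLD_differentIdeal_eq B' (FractionRing B') (FractionRing B) B (FLD_tot_hram hres) hϖ

end Tower

end Fermat.Agent.S56.H176
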