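import Mathlib
import Fermat.Agent.S56.H176.FLDEis
import Fermat.Agent.S56.H176.FLDUnrDiff

/-!
# S56 / FL STRUCT, glue: the Eisenstein presentation over an unramified subring

`A ⊂ B₁ ⊂ B` discrete valuation rings of characteristic `0`, `B` finite over `A`, the residue
field of `A` finite, `𝔪_A = (p)`, `𝔪_{B₁} = (p)` (`B₁ / A` unramified), `B₁ → B` inducing an
isomorphism of residue fields (`hres`), `(p) = 𝔪_B ^ e`.  Then for every uniformiser `ϖ` of `B`
with minimal polynomial `G` over `B₁`:

* `B = ⨁_{i<e} B₁ ϖ^i`, `G` is Eisenstein of degree `e`;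
* if `G + p X^j` has a root in `B` (`p ∤ j`, `0 < j < e`) then
  `differentIdeal A B ∣ (p) 𝔪_B^(j-1)`.

`FLD_struct_glue` packages this in the shape of `FL.StructStatement` (with the subring
`B' = range (B₁ → B)`); only the construction of `B₁` (the inertia-fixed subring) is left to the
caller.
-/

set_option autoImplicit false
set_option linter.unusedSectionVars false
set_option linter.style.haveILetI false

namespace Fermat.Agent.S56.H176

open IsDiscreteValuationRing Polynomial

attribute [local instance] FractionRing.liftAlgebra FractionRing.isScalarTower_liftAlgebra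

/-- An integer prime to the residue characteristic is a unit. -/
theorem FLD_addVal_natCast_eq_zero {R : Type*} [CommRing R] [IsDomain R]
    [IsDiscreteValuationRing R] {p j : ℕ} (hp : p.Prime)
    (hpR : (p : R) ∈ IsLocalRing.maximalIdeal R) (hpj : ¬ p ∣ j) : addVal R (j : R) = 0 := by
  rw [addVal_eq_zero_iff]
  have hcop : IsCoprime (p : ℤ) (j : ℤ) :=
    Nat.isCoprime_iff_coprime.mpr ((Nat.Prime.coprime_iff_not_dvd hp).mpr hpj)
  obtain ⟨a, b, hab⟩ := hcop
  have h1 : (b : R) * (j : R) = 1 - (a : R) * (p : R) := by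
    have := congrArg (fun z : ℤ => (z : R)) hab
    simp only [Int.cast_add, Int.cast_mul, Int.cast_natCast, Int.cast_one] at this
    rw [← this]
    ring
  have h2 : IsUnit ((b : R) * (j : R)) := by
    rw [h1]
    apply IsLocalRing.isUnit_one_sub_self_of_mem_nonunits
    exact Ideal.mul_mem_left _ _ hpR
  exact isUnit_of_mul_isUnit_right h2

section Struct

/-- The intermediate ring is finite over the base. -/
theorem FLD_struct_finite_bot (A B₁ B : Type*) [CommRing A] [IsDomain A]
    [IsDiscreteValuationRing A] [CommRing B₁] [CommRing B] [Algebra A B₁] [Algebra B₁ B]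
    [Algebra A B] [IsScalarTower A B₁ B] [Module.Finite A B] [FaithfulSMul B₁ B] :
    Module.Finite A B₁ :=
  Module.Finite.of_injective (IsScalarTower.toAlgHom A B₁ B).toLinearMap
    (FaithfulSMul.algebraMap_injective B₁ B)

/-- The intermediate ring contains the base. -/
theorem FLD_struct_faithful_bot (A B₁ B : Type*) [CommRing A] [CommRing B₁] [CommRing B]
    [Algebra A B₁] [Algebra B₁ B] [Algebra A B] [IsScalarTower A B₁ B] [FaithfulSMul A B] :
    FaithfulSMul A B₁ := by
  rw [faithfulSMul_iff_algebraMap_injective]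
  intro x y hxy
  apply FaithfulSMul.algebraMap_injective A B
  rw [IsScalarTower.algebraMap_apply A B₁ B, hxy, ← IsScalarTower.algebraMap_apply A B₁ B]

/-- The top ring is finite over the intermediate ring. -/
theorem FLD_struct_finite_top (A B₁ B : Type*) [CommRing A] [CommRing B₁] [CommRing B]
    [Algebra A B₁] [Algebra B₁ B] [Algebra A B] [IsScalarTower A B₁ B] [Module.Finite A B] :
    Module.Finite B₁ B :=
  Module.Finite.of_restrictScalars_finite A B₁ B

variable (p : ℕ) [Fact p.Prime]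
  {A : Type*} [CommRing A] [IsDomain A] [IsDiscreteValuationRing A]
  {B₁ : Type*} [CommRing B₁] [IsDomain B₁] [IsDiscreteValuationRing B₁]
  {B : Type*} [CommRing B] [IsDomain B] [IsDiscreteValuationRing B] [CharZero B]
  [Algebra A B₁] [Algebra B₁ B] [Algebra A B] [IsScalarTower A B₁ B]
  [Module.Finite A B] [FaithfulSMul A B] [FaithfulSMul B₁ B]

omit [Fact p.Prime] [CharZero B] [IsDomain B₁] [IsDiscreteValuationRing B₁] [FaithfulSMul B₁ B]
  [Module.Finite A B] [FaithfulSMul A B] [IsDomain A] [IsDiscreteValuationRing A] in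
/-- `v_B(p) = e` if `(p) = 𝔪_B ^ e`. -/
theorem FLD_struct_addVal_p {e : ℕ}
    (he : Ideal.span {(p : B)} = IsLocalRing.maximalIdeal B ^ e) :
    addVal B (p : B) = e := by
  obtain ⟨ϖ, hϖirr⟩ := exists_irreducible B
  have hmaxB := (irreducible_iff_uniformizer ϖ).mp hϖirr
  rw [hmaxB, Ideal.span_singleton_pow, Ideal.span_singleton_eq_span_singleton] at he
  rw [(addVal_eq_iff_associated _ _).mpr he, addVal_pow, addVal_uniformizer hϖirr]
  simp

/-- **STRUCT, glue.**  The Eisenstein presentation of `B` over an unramified intermediate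
discrete valuation ring `B₁` with the same residue field as `B`, and the different bound from a
root of the perturbed Eisenstein polynomial, in the shape of `FL.StructStatement`
(with `B' = range (B₁ → B)`). -/
theorem FLD_struct_glue [Finite (IsLocalRing.ResidueField A)]
    (hA : IsLocalRing.maximalIdeal A = Ideal.span {(p : A)})
    (hB₁ : IsLocalRing.maximalIdeal B₁ = Ideal.span {(p : B₁)})
    (hres : ∀ b : B, ∃ a : B₁, b - algebraMap B₁ B a ∈ IsLocalRing.maximalIdeal B)
    (e : ℕ) (he : Ideal.span {(p : B)} = IsLocalRing.maximalIdeal B ^ e) :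
    ∃ (ϖ : B) (G : B[X]),
      (∀ a : A, algebraMap A B a ∈ (algebraMap B₁ B).range) ∧
      (∀ b ∈ (algebraMap B₁ B).range, b ≠ 0 →
        ∃ (n : ℕ) (u : B), u ∈ (algebraMap B₁ B).range ∧ IsUnit u ∧ b = (p : B) ^ n * u) ∧
      IsLocalRing.maximalIdeal B = Ideal.span {ϖ} ∧
      (∀ b : B, ∃ a : Fin e → B, (∀ i, a i ∈ (algebraMap B₁ B).range) ∧
        b = ∑ i, a i * ϖ ^ (i : ℕ)) ∧
      G.Monic ∧ G.natDegree = e ∧ (∀ i, G.coeff i ∈ (algebraMap B₁ B).range) ∧
      (∀ i < e, G.coeff i ∈ Ideal.span {(p : B)}) ∧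
      (∃ u : B, IsUnit u ∧ G.coeff 0 = (p : B) * u) ∧
      G.eval ϖ = 0 ∧
      ∀ j : ℕ, ¬ p ∣ j → 0 < j → j < e →
        (∃ ϖ' : B, G.eval ϖ' + (p : B) * ϖ' ^ j = 0) →
        differentIdeal A B ∣ Ideal.span {(p : B)} * IsLocalRing.maximalIdeal B ^ (j - 1) := by
  haveI := FLD_struct_finite_bot A B₁ B
  haveI := FLD_struct_faithful_bot A B₁ B
  haveI := FLD_struct_finite_top A B₁ B
  haveI : CharZero A := (algebraMap A B).charZero
  haveI : CharZero B₁ := (algebraMap B₁ B).charZero
  haveI := FLD_finiteDimensional_frac B₁ B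
  haveI := FLD_isSeparable_frac B₁ B
  have hp : p.Prime := Fact.out
  obtain ⟨ϖ, hϖirr⟩ := exists_irreducible B
  have hϖ := addVal_uniformizer hϖirr
  have hmaxB := (irreducible_iff_uniformizer ϖ).mp hϖirr
  have hpirr : Irreducible (p : B₁) := (irreducible_iff_uniformizer _).mpr hB₁
  have hpB₁ : addVal B₁ (p : B₁) = 1 := addVal_uniformizer hpirr
  have hpB : addVal B (p : B) = e := FLD_struct_addVal_p p he
  -- total ramification
  have hram := FLD_tot_hram (A' := B₁) (B := B) hres
  have hne : Module.finrank (FractionRing B₁) (FractionRing B) = e := by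
    have h1 := hram (p : B₁)
    rw [map_natCast, hpB, hpB₁, nsmul_one] at h1
    exact_mod_cast h1.symm
  rw [hne] at hram
  have hunr : IsLocalRing.maximalIdeal B₁ =
      (IsLocalRing.maximalIdeal A).map (algebraMap A B₁) := by
    rw [hA, Ideal.map_span, Set.image_singleton, map_natCast, hB₁]
  have hdiff := FLD_unr_differentIdeal_eq (A := A) hunr hres hϖ
  have hdeg : (minpoly B₁ ϖ).natDegree = e := by
    rw [← hne]
    exact FLD_natDegree_minpoly B₁ (FractionRing B₁) (FractionRing B) B (hne ▸ hram) hϖ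
  have hint : IsIntegral B₁ ϖ := Algebra.IsIntegral.isIntegral ϖ
  have hmonic : (minpoly B₁ ϖ).Monic := minpoly.monic hint
  refine ⟨ϖ, (minpoly B₁ ϖ).map (algebraMap B₁ B), ?_, ?_, hmaxB, ?_, hmonic.map _, ?_, ?_, ?_,
    ?_, ?_, ?_⟩
  · intro a
    exact ⟨algebraMap A B₁ a, (IsScalarTower.algebraMap_apply A B₁ B a).symm⟩
  · rintro _ ⟨b, rfl⟩ hb
    have hb0 : b ≠ 0 := fun h => hb (by rw [h, map_zero])
    obtain ⟨n, u, hu⟩ := eq_unit_mul_pow_irreducible hb0 hpirr
    refine ⟨n, algebraMap B₁ B u, ⟨u, rfl⟩, u.isUnit.map _, ?_⟩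
    rw [hu, map_mul, map_pow, map_natCast, mul_comm]
  · intro b
    have hb : b ∈ Submodule.span B₁ (Set.range fun j : Fin e => ϖ ^ (j : ℕ)) := by
      rw [FLD_tot_span hres hram hϖ]
      trivial
    obtain ⟨c, hc⟩ := (Submodule.mem_span_range_iff_exists_fun B₁).mp hb
    refine ⟨fun i => algebraMap B₁ B (c i), fun i => ⟨c i, rfl⟩, ?_⟩
    rw [← hc]
    refine Finset.sum_congr rfl fun i _ => ?_
    rw [Algebra.smul_def]
  · rw [hmonic.natDegree_map, hdeg]
  · intro i
    rw [coeff_map]
    exact ⟨_, rfl⟩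
  · intro i hi
    have h1 := FLD_minpoly_coeff_ge B₁ (FractionRing B₁) (FractionRing B) B (hne ▸ hram) hϖ
      (j := i) (by rw [hne]; exact hi)
    rw [← hpB₁, addVal_le_iff_dvd] at h1
    obtain ⟨c, hc⟩ := h1
    rw [coeff_map, hc, map_mul, map_natCast, Ideal.mem_span_singleton]
    exact ⟨_, rfl⟩
  · have h1 := FLD_minpoly_coeff_zero B₁ (FractionRing B₁) (FractionRing B) B (hne ▸ hram) hϖ
    rw [← hpB₁, addVal_eq_iff_associated] at h1
    obtain ⟨u, hu⟩ := h1.symm
    refine ⟨algebraMap B₁ B u, u.isUnit.map _, ?_⟩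
    rw [coeff_map, ← hu, map_mul, map_natCast]
  · rw [eval_map_algebraMap, minpoly.aeval]
  · intro j hpj hj0 hje ⟨ϖ', hϖ'⟩
    have hroot : aeval ϖ' (minpoly B₁ ϖ + C (p : B₁) * X ^ j) = 0 := by
      rw [map_add, map_mul, map_pow, aeval_X, aeval_C, map_natCast, ← eval_map_algebraMap]
      exact hϖ'
    have hku : addVal B₁ (j : B₁) = 0 := by
      apply FLD_addVal_natCast_eq_zero hp _ hpj
      rw [hB₁]
      exact Ideal.subset_span rfl
    have hbound := FLD_addVal_deriv_le_of_root B₁ (FractionRing B₁) (FractionRing B) B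
      (hne ▸ hram) hϖ (p : B₁) (by rw [hpB₁]) (k := j) hj0 (by rw [hne]; exact hje) hku ϖ' hroot
    rw [hne, hpB₁, nsmul_one] at hbound
    have hdvd : aeval ϖ (derivative (minpoly B₁ ϖ)) ∣ ϖ ^ (e + (j - 1)) := by
      rw [← addVal_le_iff_dvd, addVal_pow, hϖ, nsmul_one]
      refine hbound.trans (le_of_eq ?_)
      push_cast
      rfl
    rw [hdiff, he, ← pow_add, hmaxB, Ideal.span_singleton_pow]
    exact (Ideal.span_singleton_dvd_span_singleton_iff_dvd).mpr hdvd

end Struct

end Fermat.Agent.S56.H176
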